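import Fermat.Agent.BMZ.Main

/-!
# `α` and `1 - α`

The numbers `α` with `α` and `1 - α` multiplicatively dependent have bounded height and are
infinitely many.
-/

set_option autoImplicit false

noncomputable section

open FA.BiluTorus (algHeight)

namespace FA.BMZ

/-- Dependence of `α` and `1 - α`. -/
def DependentOneSub (α : ℂ) : Prop :=
  IsAlgebraic ℚ α ∧ α ≠ 0 ∧ α ≠ 1 ∧ ∃ u w : ℤ, (u ≠ 0 ∨ w ≠ 0) ∧ α ^ u * (1 - α) ^ w = 1

/-- **Bounded height.** -/
theorem dependentOneSub_bounded : ∃ T : ℝ, ∀ α, DependentOneSub α → algHeight α ≤ T := by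
  obtain ⟨T, hT⟩ := exists_height_bound (ι := Fin 2) (J := Fin 2) ![1, -1]
    (fun i => by
      fin_cases i
      · simpa using isAlgebraic_one (R := ℚ) (A := ℂ)
      · simpa using (isAlgebraic_one (R := ℚ) (A := ℂ)).neg)
    ![0, 1] (by intro i j; fin_cases i <;> fin_cases j <;> simp)
    (fun j => by fin_cases j <;> simp [isAlgebraic_zero, isAlgebraic_one])
    ![![1, 0], ![0, 1]] (fun e he => by
      have h0 := he 0
      have h1 := he 1
      simp [Fin.sum_univ_two] at h0 h1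
      funext i
      fin_cases i <;> simp [h0, h1])
  refine ⟨T, fun α ⟨halg, h0, h1, u, w, huw, h⟩ => hT α halg (fun j => ?_) ⟨![u, w], ?_, ?_⟩⟩
  · fin_cases j <;> simp [h0, h1]
  · intro he
    have := congrFun he 0
    have := congrFun he 1
    simp_all
  · simp [Fin.prod_univ_two]
    exact h

/-- A root of `X ^ k + X - 1` between `0` and `1`. -/
theorem exists_root_trinomial {k : ℕ} (hk : 1 ≤ k) :
    ∃ x : ℝ, 0 < x ∧ x < 1 ∧ x ^ k = 1 - x := by
  have hc : ContinuousOn (fun x : ℝ => x ^ k + x - 1) (Set.Icc 0 1) := by fun_prop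
  obtain ⟨x, hx, hx0⟩ := intermediate_value_Ioo zero_le_one hc (show (0 : ℝ) ∈ Set.Ioo
    ((0 : ℝ) ^ k + 0 - 1) ((1 : ℝ) ^ k + 1 - 1) by simp [zero_pow (by omega : k ≠ 0)])
  exact ⟨x, hx.1, hx.2, by linarith [show x ^ k + x - 1 = 0 from hx0]⟩

/-- **There are infinitely many.** -/
theorem dependentOneSub_infinite : {α : ℂ | DependentOneSub α}.Infinite := by
  choose f hf using fun k : ℕ => exists_root_trinomial (k := k + 1) (Nat.succ_pos k)
  refine Set.infinite_of_injective_forall_mem (f := fun k => (f k : ℂ)) (fun i j hij => ?_)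
    fun k => ?_
  · have hx : f i = f j := Complex.ofReal_injective hij
    have h1 : f i ^ (i + 1) = f i ^ (j + 1) := by rw [(hf i).2.2, hx, (hf j).2.2]
    exact Nat.succ_injective ((pow_right_strictAnti₀ (hf i).1 (hf i).2.1).injective h1)
  · obtain ⟨h0, h1, heq⟩ := hf k
    have hC : (f k : ℂ) ^ (k + 1) = 1 - (f k : ℂ) := by exact_mod_cast heq
    have h1' : (1 - (f k : ℂ)) ≠ 0 := sub_ne_zero.2 fun h => h1.ne (by exact_mod_cast h.symm)
    refine ⟨?_, by exact_mod_cast h0.ne', by exact_mod_cast h1.ne, ((k + 1 : ℕ) : ℤ), -1,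
      Or.inr (by norm_num), ?_⟩
    · refine ⟨Polynomial.X ^ (k + 1) + Polynomial.X - 1, fun h => ?_, ?_⟩
      · have := congrArg (Polynomial.eval (1 : ℚ)) h
        simp at this
      · simp [hC]
    · rw [zpow_natCast, hC, zpow_neg_one, mul_inv_cancel₀ h1']

end FA.BMZ

end
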