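import Mathlib.NumberTheory.Height.Basic
import Mathlib.NumberTheory.Height.NumberField

/-!
# The height of a product of powers of `α - ρ`

At every absolute value `α` is near at most one `ρ`; so the height of
`∏ (α - ρ_j) ^ M_j` is at least `∑ |M_j|` times half the height of `α`, minus a constant.
-/

set_option autoImplicit false

noncomputable section

open Height AdmissibleAbsValues Function Finset

namespace FA.BMZ

variable {K : Type*} [Field K] {J : Type*} [Fintype J]

theorem le_prod_of_one_le {β : Type*} [Fintype β] {f : β → ℝ} (hf : ∀ i, 1 ≤ f i) (i : β) :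
    f i ≤ ∏ j, f j := by
  classical
  rw [← Finset.prod_singleton f i]
  exact Finset.prod_le_prod_of_subset_of_one_le (Finset.subset_univ _)
    (fun j _ => zero_le_one.trans (hf j)) fun j _ _ => hf j

/-- The loss at one absolute value. -/
def gap (v : AbsoluteValue K ℝ) (κ : ℝ) (ρ : J → K) : ℝ :=
  κ ^ 2 * (∏ j, max (v (ρ j)) 1) * ∏ z : J × J, max (v (ρ z.1 - ρ z.2)⁻¹) 1

theorem sq_le_gap (v : AbsoluteValue K ℝ) {κ : ℝ} (ρ : J → K) : κ ^ 2 ≤ gap v κ ρ := by
  rw [gap, mul_assoc]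
  exact le_mul_of_one_le_right (sq_nonneg κ) (one_le_mul_of_one_le_of_one_le
    (Finset.one_le_prod fun _ _ => le_max_right ..) (Finset.one_le_prod fun _ _ => le_max_right ..))

/-- At most one `ρ` is near. -/
theorem le_gap (v : AbsoluteValue K ℝ) {κ : ℝ} (hκ : 1 ≤ κ) (ρ : J → K) (i : J) :
    κ * max (v (ρ i)) 1 ≤ gap v κ ρ := by
  refine le_trans ?_ (le_mul_of_one_le_right ?_
    (Finset.one_le_prod fun _ _ => le_max_right ..))
  · exact mul_le_mul (by nlinarith)
      (le_prod_of_one_le (f := fun j => max (v (ρ j)) 1) (fun j => le_max_right ..) i)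
      (zero_le_one.trans (le_max_right ..)) (sq_nonneg κ)
  · exact mul_nonneg (sq_nonneg κ) (Finset.prod_nonneg fun _ _ => zero_le_one.trans
      (le_max_right ..))

/-- **One absolute value.** -/
theorem local_bound (v : AbsoluteValue K ℝ) {κ : ℝ} (hκ : 1 ≤ κ)
    (htri : ∀ a b, v (a + b) ≤ κ * max (v a) (v b)) (ρ : J → K) (hρ : Injective ρ) (α : K)
    (p q : J → ℕ) (hpq : ∀ j, p j = 0 ∨ q j = 0) :
    max (v α) 1 ^ ∑ j, p j ≤
      max (v (∏ j, (α - ρ j) ^ p j)) (v (∏ j, (α - ρ j) ^ q j)) *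
        gap v κ ρ ^ (∑ j, p j + ∑ j, q j) := by
  classical
  set T := max (v α) 1
  set G := gap v κ ρ
  have hT : 1 ≤ T := le_max_right ..
  have hG : 1 ≤ G := le_trans (by nlinarith) (sq_le_gap v ρ)
  have hG0 : 0 < G := zero_lt_one.trans_le hG
  -- an exceptional `ρ` bounds `α`
  have hexc : ∀ j, v (α - ρ j) * G < T → T ≤ κ * max (v (ρ j)) 1 := fun j hj => by
    refine max_le ?_ (by nlinarith [le_max_right (v (ρ j)) 1])
    have h1 : v α ≤ κ * max (v (α - ρ j)) (v (ρ j)) := by
      simpa using htri (α - ρ j) (ρ j)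
    rcases max_cases (v (α - ρ j)) (v (ρ j)) with ⟨h2, -⟩ | ⟨h2, -⟩
    · rw [h2] at h1
      have h3 : κ * v (α - ρ j) < T := lt_of_le_of_lt
        (by rw [mul_comm κ]
            exact mul_le_mul_of_nonneg_left ((by nlinarith : κ ≤ κ ^ 2).trans (sq_le_gap v ρ))
              (v.nonneg _)) hj
      rcases max_cases (v α) 1 with ⟨h4, -⟩ | ⟨-, h4⟩
      · exact absurd (h1.trans_lt h3) (by rw [show T = v α from h4]; exact lt_irrefl _)
      · nlinarith [le_max_right (v (ρ j)) 1]
    · rw [h2] at h1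
      exact h1.trans (mul_le_mul_of_nonneg_left (le_max_left ..) (by linarith))
  have huniq : ∀ i j, v (α - ρ i) * G < T → v (α - ρ j) * G < T → i = j := by
    intro i j hi hj
    by_contra hne
    have hd0 : ρ i - ρ j ≠ 0 := sub_ne_zero.2 (hρ.ne hne)
    have hd : v (ρ i - ρ j) ≤ κ * max (v (α - ρ j)) (v (α - ρ i)) := by
      have := htri (α - ρ j) (-(α - ρ i))
      rwa [v.map_neg, show α - ρ j + -(α - ρ i) = ρ i - ρ j by ring] at this
    have h1 : v (ρ i - ρ j) * G < κ * T := by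
      refine lt_of_le_of_lt (mul_le_mul_of_nonneg_right hd hG0.le) ?_
      rw [mul_assoc, max_mul_of_nonneg _ _ hG0.le]
      exact mul_lt_mul_of_pos_left (max_lt hj hi) (by linarith)
    have h2 : κ * T ≤ κ * (κ * max (v (ρ i)) 1) :=
      mul_le_mul_of_nonneg_left (hexc i hi) (by linarith)
    have h3 : κ * (κ * max (v (ρ i)) 1) ≤ v (ρ i - ρ j) * G := by
      have hone : 1 ≤ v (ρ i - ρ j) * max (v (ρ i - ρ j)⁻¹) 1 := by
        refine le_trans ?_ (mul_le_mul_of_nonneg_left (le_max_left ..) (v.nonneg _))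
        rw [← v.map_mul, mul_inv_cancel₀ hd0, map_one]
      have hP : max (v (ρ i)) 1 ≤ ∏ k, max (v (ρ k)) 1 :=
        le_prod_of_one_le (f := fun k => max (v (ρ k)) 1) (fun k => le_max_right ..) i
      have hD : max (v (ρ i - ρ j)⁻¹) 1 ≤ ∏ z : J × J, max (v (ρ z.1 - ρ z.2)⁻¹) 1 :=
        le_prod_of_one_le (f := fun z : J × J => max (v (ρ z.1 - ρ z.2)⁻¹) 1)
          (fun z => le_max_right ..) (i, j)
      calc κ * (κ * max (v (ρ i)) 1) = κ ^ 2 * max (v (ρ i)) 1 * 1 := by ring
        _ ≤ κ ^ 2 * (∏ k, max (v (ρ k)) 1) * (v (ρ i - ρ j) * max (v (ρ i - ρ j)⁻¹) 1) :=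
          mul_le_mul (mul_le_mul_of_nonneg_left hP (sq_nonneg κ)) hone zero_le_one
            (mul_nonneg (sq_nonneg κ) (Finset.prod_nonneg fun _ _ =>
              zero_le_one.trans (le_max_right ..)))
        _ = v (ρ i - ρ j) *
            (κ ^ 2 * (∏ k, max (v (ρ k)) 1) * max (v (ρ i - ρ j)⁻¹) 1) := by ring
        _ ≤ v (ρ i - ρ j) * G := mul_le_mul_of_nonneg_left (mul_le_mul_of_nonneg_left hD
            (mul_nonneg (sq_nonneg κ) (Finset.prod_nonneg fun _ _ =>
              zero_le_one.trans (le_max_right ..)))) (v.nonneg _)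
    linarith
  have hlow : ∀ r : J → ℕ, (∀ j, r j ≠ 0 → T ≤ v (α - ρ j) * G) →
      T ^ ∑ j, r j ≤ v (∏ j, (α - ρ j) ^ r j) * G ^ ∑ j, r j := by
    intro r hr
    rw [map_prod, ← Finset.prod_pow_eq_pow_sum, ← Finset.prod_pow_eq_pow_sum,
      ← Finset.prod_mul_distrib]
    refine Finset.prod_le_prod (fun j _ => pow_nonneg (zero_le_one.trans hT) _) fun j _ => ?_
    rw [map_pow, ← mul_pow]
    rcases eq_or_ne (r j) 0 with h | h
    · simp [h]
    · exact pow_le_pow_left₀ (zero_le_one.trans hT) (hr j h) _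
  by_cases hex : ∃ j, p j ≠ 0 ∧ v (α - ρ j) * G < T
  · obtain ⟨j₀, hp₀, hj₀⟩ := hex
    have hTG : T ≤ G := (hexc j₀ hj₀).trans (le_gap v hκ ρ j₀)
    have hq := hlow q fun j hj => not_lt.1 fun h => by
      obtain rfl := huniq j j₀ h hj₀
      exact hj ((hpq j).resolve_left hp₀)
    have h1 : 1 ≤ v (∏ j, (α - ρ j) ^ q j) * G ^ ∑ j, q j := le_trans (one_le_pow₀ hT) hq
    calc T ^ ∑ j, p j ≤ G ^ ∑ j, p j := pow_le_pow_left₀ (zero_le_one.trans hT) hTG _
      _ ≤ G ^ (∑ j, p j) * (v (∏ j, (α - ρ j) ^ q j) * G ^ ∑ j, q j) :=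
        le_mul_of_one_le_right (pow_nonneg hG0.le _) h1
      _ = v (∏ j, (α - ρ j) ^ q j) * G ^ (∑ j, p j + ∑ j, q j) := by rw [pow_add]; ring
      _ ≤ _ := mul_le_mul_of_nonneg_right (le_max_right ..) (pow_nonneg hG0.le _)
  · push Not at hex
    calc T ^ ∑ j, p j ≤ v (∏ j, (α - ρ j) ^ p j) * G ^ ∑ j, p j := hlow p hex
      _ ≤ max (v (∏ j, (α - ρ j) ^ p j)) (v (∏ j, (α - ρ j) ^ q j)) *
          G ^ (∑ j, p j + ∑ j, q j) := mul_le_mul (le_max_left ..)
            (pow_le_pow_right₀ hG (Nat.le_add_right _ _)) (pow_nonneg hG0.le _)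
            (le_max_of_le_left (v.nonneg _))

section global

variable [AdmissibleAbsValues K]

theorem finite_max (x : K) :
    (fun v : nonarchAbsVal (K := K) => max (v.val x) 1).HasFiniteMulSupport := by
  rcases eq_or_ne x 0 with rfl | hx
  · simp [HasFiniteMulSupport]
  · exact (hasFiniteMulSupport hx).subset fun v hv h => hv (by simp [h])

theorem finite_pair {A B : K} (hA : A ≠ 0) (hB : B ≠ 0) :
    (fun v : nonarchAbsVal (K := K) => max (v.val A) (v.val B)).HasFiniteMulSupport :=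
  ((hasFiniteMulSupport hA).union (hasFiniteMulSupport hB)).subset fun v hv => by
    by_contra h
    simp only [Set.mem_union, mem_mulSupport, not_or, not_not] at h
    exact hv (by simp [h.1, h.2])

/-- The loss in all absolute values together. -/
def totalGap (ρ : J → K) : ℝ :=
  4 ^ totalWeight K * (∏ j, mulHeight₁ (ρ j)) * ∏ z : J × J, mulHeight₁ (ρ z.1 - ρ z.2)⁻¹

theorem prod_gap (ρ : J → K) :
    (archAbsVal.map fun v => gap v 2 ρ).prod * ∏ᶠ v : nonarchAbsVal (K := K), gap v.val 1 ρ =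
      totalGap ρ := by
  classical
  simp only [gap, totalGap, Multiset.prod_map_mul, one_pow, one_mul, Multiset.map_const',
    Multiset.prod_replicate, mulHeight₁_eq]
  have hf1 : ∀ j, (fun v : nonarchAbsVal (K := K) => max (v.val (ρ j)) 1).HasFiniteMulSupport :=
    fun j => finite_max _
  have hf2 : ∀ z : J × J,
      (fun v : nonarchAbsVal (K := K) => max (v.val (ρ z.1 - ρ z.2)⁻¹) 1).HasFiniteMulSupport :=
    fun z => finite_max _
  rw [finprod_mul_distrib (by fun_prop) (by fun_prop), finprod_prod_comm _ _ fun j _ => hf1 j,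
    finprod_prod_comm _ _ fun z _ => hf2 z, Finset.prod_mul_distrib, Finset.prod_mul_distrib,
    Multiset.prod_map_prod, Multiset.prod_map_prod]
  rw [totalWeight]
  norm_num
  ring

/-- **All absolute values.** -/
theorem height_prod_bound (ρ : J → K) (hρ : Injective ρ) (α : K) (hα : ∀ j, α ≠ ρ j)
    (p q : J → ℕ) (hpq : ∀ j, p j = 0 ∨ q j = 0) :
    mulHeight₁ α ^ ∑ j, p j ≤
      mulHeight₁ ((∏ j, (α - ρ j) ^ p j) / ∏ j, (α - ρ j) ^ q j) *
        totalGap ρ ^ (∑ j, p j + ∑ j, q j) := by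
  classical
  set A := ∏ j, (α - ρ j) ^ p j
  set B := ∏ j, (α - ρ j) ^ q j
  set W := ∑ j, p j + ∑ j, q j
  have hA : A ≠ 0 := Finset.prod_ne_zero_iff.2 fun j _ => pow_ne_zero _ (sub_ne_zero.2 (hα j))
  have hB : B ≠ 0 := Finset.prod_ne_zero_iff.2 fun j _ => pow_ne_zero _ (sub_ne_zero.2 (hα j))
  have hAB : (![A, B] : Fin 2 → K) ≠ 0 := fun h => hA (by simpa using congrFun h 0)
  have hsup : ∀ v : AbsoluteValue K ℝ, ⨆ i, v (![A, B] i) = max (v A) (v B) := fun v =>
    eq_of_forall_ge_iff fun c => by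
      simp [ciSup_le_iff (Finite.bddAbove_range _), Fin.forall_fin_two]
  have harch : ∀ v ∈ archAbsVal (K := K), ∀ a b : K, v (a + b) ≤ 2 * max (v a) (v b) :=
    fun v _ a b => (v.add_le a b).trans (by
      rw [two_mul]; exact add_le_add (le_max_left ..) (le_max_right ..))
  have hna : ∀ v : nonarchAbsVal (K := K), ∀ a b : K,
      v.val (a + b) ≤ 1 * max (v.val a) (v.val b) :=
    fun v a b => by rw [one_mul]; exact isNonarchimedean v.val v.2 a b
  have hfin : (fun v : nonarchAbsVal (K := K) => gap v.val 1 ρ).HasFiniteMulSupport := by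
    simp only [gap, one_pow, one_mul]
    refine (Set.Finite.union ?_ ?_).subset (mulSupport_mul _ _)
    · exact (Set.finite_iUnion fun j => finite_max (ρ j)).subset
        (mulSupport_prod _ _ |>.trans (Set.iUnion₂_subset fun j _ =>
          Set.subset_iUnion (fun j => mulSupport fun v : nonarchAbsVal (K := K) =>
            max (v.val (ρ j)) 1) j))
    · exact (Set.finite_iUnion fun z : J × J => finite_max (ρ z.1 - ρ z.2)⁻¹).subset
        (mulSupport_prod _ _ |>.trans (Set.iUnion₂_subset fun z _ =>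
          Set.subset_iUnion (fun z : J × J => mulSupport fun v : nonarchAbsVal (K := K) =>
            max (v.val (ρ z.1 - ρ z.2)⁻¹) 1) z))
  rw [mulHeight₁_div_eq_mulHeight, mulHeight_eq hAB, ← prod_gap ρ, mulHeight₁_eq, mul_pow, mul_pow,
    mul_mul_mul_comm, ← Multiset.prod_map_pow, ← Multiset.prod_map_pow, ← Multiset.prod_map_mul,
    finprod_pow (finite_max α), finprod_pow hfin]
  have hgap : ∀ (v : AbsoluteValue K ℝ) (κ : ℝ), 0 ≤ gap v κ ρ := fun v κ =>
    (sq_nonneg κ).trans (sq_le_gap v ρ)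
  refine mul_le_mul ?_ ?_
    (finprod_nonneg fun v => pow_nonneg (zero_le_one.trans (le_max_right ..)) _)
    (Multiset.prod_map_nonneg fun v _ => mul_nonneg (Real.iSup_nonneg_of_nonnegHomClass v _)
      (pow_nonneg (hgap v 2) _))
  · refine Multiset.prod_map_le_prod_map₀ _ _
      (fun v _ => pow_nonneg (zero_le_one.trans (le_max_right ..)) _) fun v hv => ?_
    rw [hsup]
    exact local_bound v one_le_two (harch v hv) ρ hρ α p q hpq
  · have hfG : (fun v : nonarchAbsVal (K := K) => gap v.val 1 ρ ^ W).HasFiniteMulSupport :=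
      hfin.subset fun v hv h => hv (by simp [h])
    rw [← finprod_mul_distrib (by simp only [hsup]; exact finite_pair hA hB) hfG]
    refine finprod_le_finprod ?_ (fun v => pow_nonneg (zero_le_one.trans (le_max_right ..)) _) ?_
      fun v => ?_
    · exact (finite_max α).subset fun v hv h => hv (by simp [h])
    · exact ((by simp only [hsup]; exact finite_pair hA hB :
        (fun v : nonarchAbsVal (K := K) => ⨆ i, v.val (![A, B] i)).HasFiniteMulSupport).union
          hfG).subset (mulSupport_mul _ _)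
    · show _ ≤ (⨆ i, v.val (![A, B] i)) * _
      rw [hsup]
      exact local_bound v.val le_rfl (hna v) ρ hρ α p q hpq

end global

end FA.BMZ

end
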