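import Fermat.Agent.BMZ.Local
import Fermat.Agent.AbelianHeight.HeightMap
import Mathlib.LinearAlgebra.Matrix.ToLinearEquiv
import Mathlib.LinearAlgebra.Matrix.Adjugate
import Mathlib.NumberTheory.MahlerMeasure

/-!
# Bounded height of multiplicatively dependent points on rational curves

Bombieri, Masser and Zannier: if rational functions are multiplicatively independent modulo the
constants then the numbers at which their values are dependent have bounded height.
-/

set_option autoImplicit false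
set_option linter.unusedSectionVars false

noncomputable section

open Height Finset NumberField
open FA.BiluTorus (algHeight)
open scoped Matrix

namespace FA.BMZ

variable {ι J : Type*} [Fintype ι] [Fintype J]

/-- An injective integer matrix bounds the vector by its image. -/
theorem exists_exponent_bound (m : ι → J → ℤ)
    (hm : ∀ e : ι → ℤ, (∀ j, ∑ i, e i * m i j = 0) → e = 0) :
    ∃ B : ℝ, 0 ≤ B ∧ ∀ e : ι → ℤ, ∀ k, |(e k : ℝ)| ≤ B * ∑ j, |((∑ i, e i * m i j : ℤ) : ℝ)| := by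
  classical
  let m' : Matrix ι J ℤ := Matrix.of m
  let G := m' * m'ᵀ
  have hdet : G.det ≠ 0 := fun h => by
    obtain ⟨e, he0, he⟩ := Matrix.exists_vecMul_eq_zero_iff.2 h
    refine he0 (hm e fun j => ?_)
    have h1 : (e ᵥ* m') ⬝ᵥ (e ᵥ* m') = 0 := by
      conv_lhs => arg 2; rw [← Matrix.mulVec_transpose]
      rw [Matrix.dotProduct_mulVec, Matrix.vecMul_vecMul]
      show (e ᵥ* G) ⬝ᵥ e = 0
      rw [he, zero_dotProduct]
    exact congrFun ((dotProduct_self_eq_zero).1 h1) j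
  obtain ⟨B', hB'⟩ : ∃ B' : Matrix J ι ℤ, m' * B' = G.det • 1 :=
    ⟨m'ᵀ * G.adjugate, (Matrix.mul_assoc _ _ _).symm.trans (Matrix.mul_adjugate G)⟩
  obtain ⟨D, hD⟩ : ∃ D : ℤ, D = G.det := ⟨_, rfl⟩
  rw [← hD] at hB' hdet
  refine ⟨∑ z : J × ι, |(B' z.1 z.2 : ℝ)|, Finset.sum_nonneg fun _ _ => abs_nonneg _, fun e k => ?_⟩
  have hkey : (e ᵥ* m') ᵥ* B' = D • e := by
    rw [Matrix.vecMul_vecMul, hB', Matrix.vecMul_smul, Matrix.vecMul_one]
  have hk : ∑ j, (∑ i, e i * m i j) * B' j k = D * e k := congrFun hkey k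
  have hcast : ((∑ j, (∑ i, e i * m i j) * B' j k : ℤ) : ℝ) = (D : ℝ) * e k := by
    rw [← Int.cast_mul, hk]
  have hdet1 : (1 : ℝ) ≤ |(D : ℝ)| := by exact_mod_cast Int.one_le_abs hdet
  calc |(e k : ℝ)| ≤ |(D : ℝ)| * |(e k : ℝ)| := le_mul_of_one_le_left (abs_nonneg _) hdet1
    _ = |((∑ j, (∑ i, e i * m i j) * B' j k : ℤ) : ℝ)| := by rw [hcast, abs_mul]
    _ ≤ ∑ j, |((∑ i, e i * m i j : ℤ) : ℝ)| * |(B' j k : ℝ)| := by
      rw [Int.cast_sum]
      refine (Finset.abs_sum_le_sum_abs _ _).trans (le_of_eq (Finset.sum_congr rfl fun j _ => ?_))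
      rw [Int.cast_mul, abs_mul]
    _ ≤ ∑ j, |((∑ i, e i * m i j : ℤ) : ℝ)| * ∑ z : J × ι, |(B' z.1 z.2 : ℝ)| :=
      Finset.sum_le_sum fun j _ => mul_le_mul_of_nonneg_left (Finset.single_le_sum
        (f := fun z : J × ι => |(B' z.1 z.2 : ℝ)|) (fun _ _ => abs_nonneg _)
        (Finset.mem_univ (j, k))) (abs_nonneg _)
    _ = _ := by rw [← Finset.sum_mul, mul_comm]

/-- **The bound in one field.** -/
theorem logHeight_le {L : Type*} [Field L] [AdmissibleAbsValues L] (c : ι → L)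
    (ρ : J → L) (hρ : Function.Injective ρ) (m : ι → J → ℤ) {α : L} (hα : ∀ j, α ≠ ρ j)
    {e : ι → ℤ} (he : ∃ j, ∑ i, e i * m i j ≠ 0)
    (hrel : ∏ i, (c i * ∏ j, (α - ρ j) ^ m i j) ^ e i = 1) {B : ℝ}
    (hB : ∀ k, |(e k : ℝ)| ≤ B * ∑ j, |((∑ i, e i * m i j : ℤ) : ℝ)|) :
    logHeight₁ α ≤ 2 * B * ∑ i, logHeight₁ (c i) + 2 * Real.log (totalGap ρ) := by
  classical
  set M : J → ℤ := fun j => ∑ i, e i * m i j
  set p : J → ℕ := fun j => (M j).toNat
  set q : J → ℕ := fun j => (-M j).toNat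
  have hpq : ∀ j, p j = 0 ∨ q j = 0 := fun j => by simp only [p, q]; omega
  have hx : ∀ j, α - ρ j ≠ 0 := fun j => sub_ne_zero.2 (hα j)
  set y := (∏ j, (α - ρ j) ^ p j) / ∏ j, (α - ρ j) ^ q j
  have hy : y = ∏ i, (c i ^ e i)⁻¹ := by
    have hsum : ∀ j, ∀ s : Finset ι,
        (α - ρ j) ^ (∑ i ∈ s, e i * m i j) = ∏ i ∈ s, (α - ρ j) ^ (e i * m i j) := fun j s => by
      induction s using Finset.induction_on with
      | empty => simp
      | insert i s hi ih => rw [Finset.sum_insert hi, zpow_add₀ (hx j), Finset.prod_insert hi, ih]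
    have h1 : (∏ i, c i ^ e i) * ∏ j, (α - ρ j) ^ M j = 1 := by
      rw [← hrel]
      simp_rw [mul_zpow, Finset.prod_mul_distrib]
      congr 1
      rw [show ∏ i, (∏ j, (α - ρ j) ^ m i j) ^ e i = ∏ i, ∏ j, (α - ρ j) ^ (e i * m i j) from
        Finset.prod_congr rfl fun i _ => by
          rw [← Finset.prod_zpow]
          exact Finset.prod_congr rfl fun j _ => by rw [← zpow_mul, mul_comm]]
      rw [Finset.prod_comm]
      refine Finset.prod_congr rfl fun j _ => ?_
      show (α - ρ j) ^ (∑ i, e i * m i j) = _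
      exact hsum j Finset.univ
    rw [Finset.prod_inv_distrib, ← eq_inv_of_mul_eq_one_right h1]
    show (∏ j, (α - ρ j) ^ p j) / (∏ j, (α - ρ j) ^ q j) = _
    rw [← Finset.prod_div_distrib]
    refine Finset.prod_congr rfl fun j _ => ?_
    rw [← zpow_natCast, ← zpow_natCast, ← zpow_sub₀ (hx j), show M j = (p j : ℤ) - q j by
      simp only [p, q]; omega]
  have hW : ((∑ j, p j + ∑ j, q j : ℕ) : ℝ) = ∑ j, |(M j : ℝ)| := by
    rw [← Finset.sum_add_distrib, Nat.cast_sum]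
    refine Finset.sum_congr rfl fun j _ => ?_
    rw [← Int.cast_natCast (R := ℝ), ← Int.cast_abs]
    congr 1
    simp only [p, q]
    rcases le_total 0 (M j) with h | h
    · rw [abs_of_nonneg h]; omega
    · rw [abs_of_nonpos h]; omega
  have hWpos : 0 < ∑ j, |(M j : ℝ)| := by
    obtain ⟨j, hj⟩ := he
    exact lt_of_lt_of_le (abs_pos.2 (Int.cast_ne_zero.2 hj))
      (Finset.single_le_sum (f := fun j => |(M j : ℝ)|) (fun _ _ => abs_nonneg _)
        (Finset.mem_univ j))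
  have h1 := height_prod_bound ρ hρ α hα p q hpq
  have h2 := height_prod_bound ρ hρ α hα q p fun j => (hpq j).symm
  rw [← inv_div, mulHeight₁_inv, add_comm (∑ j, q j)] at h2
  have hG : 0 < totalGap ρ := by
    have := fun j => mulHeight₁_pos (ρ j)
    have := fun z : J × J => mulHeight₁_pos (ρ z.1 - ρ z.2)⁻¹
    unfold totalGap
    positivity
  have l1 := Real.log_le_log (pow_pos (mulHeight₁_pos α) _) h1
  have l2 := Real.log_le_log (pow_pos (mulHeight₁_pos α) _) h2
  rw [Real.log_pow, Real.log_mul (mulHeight₁_ne_zero _) (pow_ne_zero _ hG.ne'), Real.log_pow,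
    ← logHeight₁_eq_log_mulHeight₁, ← logHeight₁_eq_log_mulHeight₁] at l1 l2
  have hyle : logHeight₁ y ≤ ∑ i, |(e i : ℝ)| * logHeight₁ (c i) := by
    rw [hy]
    refine (logHeight₁_prod_le _ _).trans (le_of_eq (Finset.sum_congr rfl fun i _ => ?_))
    rw [logHeight₁_inv, logHeight₁_zpow, Nat.cast_natAbs, Int.cast_abs]
  have hyle' : logHeight₁ y ≤ (B * ∑ j, |(M j : ℝ)|) * ∑ i, logHeight₁ (c i) :=
    hyle.trans (by
      rw [Finset.mul_sum _ _ (B * ∑ j, |(M j : ℝ)|)]
      exact Finset.sum_le_sum fun i _ => mul_le_mul_of_nonneg_right (hB i) (zero_le_logHeight₁ _))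
  push_cast at hW l1 l2
  refine le_of_mul_le_mul_left ?_ hWpos
  have e1 : (∑ j, (p j : ℝ)) * logHeight₁ α + (∑ j, (q j : ℝ)) * logHeight₁ α =
      (∑ j, |(M j : ℝ)|) * logHeight₁ α := by rw [← add_mul, hW]
  rw [hW] at l1 l2
  linarith

/-- **Bombieri–Masser–Zannier**: dependent values force bounded height. -/
theorem exists_height_bound (c : ι → ℂ) (hcalg : ∀ i, IsAlgebraic ℚ (c i))
    (ρ : J → ℂ) (hρ : Function.Injective ρ) (hρalg : ∀ j, IsAlgebraic ℚ (ρ j)) (m : ι → J → ℤ)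
    (hm : ∀ e : ι → ℤ, (∀ j, ∑ i, e i * m i j = 0) → e = 0) :
    ∃ T : ℝ, ∀ α : ℂ, IsAlgebraic ℚ α → (∀ j, α ≠ ρ j) →
      (∃ e : ι → ℤ, e ≠ 0 ∧ ∏ i, (c i * ∏ j, (α - ρ j) ^ m i j) ^ e i = 1) → algHeight α ≤ T := by
  classical
  obtain ⟨B, -, hB⟩ := exists_exponent_bound m hm
  refine ⟨2 * B * ∑ i, algHeight (c i) + 2 * (Real.log 4 + ∑ j, algHeight (ρ j) +
    ∑ z : J × J, algHeight (ρ z.1 - ρ z.2)⁻¹), fun α halg hα ⟨e, he0, hrel⟩ => ?_⟩
  let L : IntermediateField ℚ ℂ :=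
    IntermediateField.adjoin ℚ (insert α (Set.range ρ ∪ Set.range c))
  have : Finite (insert α (Set.range ρ ∪ Set.range c) : Set ℂ) :=
    ((Set.finite_range ρ).union (Set.finite_range c)).insert α |>.to_subtype
  have : FiniteDimensional ℚ L := IntermediateField.finiteDimensional_adjoin fun x hx => by
    rcases hx with rfl | ⟨j, rfl⟩ | ⟨i, rfl⟩
    · exact halg.isIntegral
    · exact (hρalg j).isIntegral
    · exact (hcalg i).isIntegral
  have : NumberField L := {}
  let α' : L := ⟨α, IntermediateField.subset_adjoin _ _ (Or.inl rfl)⟩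
  let ρ' : J → L := fun j => ⟨ρ j, IntermediateField.subset_adjoin _ _ (Or.inr (Or.inl ⟨j, rfl⟩))⟩
  let c' : ι → L := fun i => ⟨c i, IntermediateField.subset_adjoin _ _ (Or.inr (Or.inr ⟨i, rfl⟩))⟩
  have hval : ∀ x : L, logHeight₁ x = Module.finrank ℚ L * algHeight (x : ℂ) := fun x =>
    AbelianHeight.logHeight_eq_algHeight L.val x
  have hrel' : ∏ i, (c' i * ∏ j, (α' - ρ' j) ^ m i j) ^ e i = 1 := L.val.injective (by
    simp only [map_prod, map_zpow₀, map_mul, map_sub, map_one]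
    exact hrel)
  have hne : ∃ j, ∑ i, e i * m i j ≠ 0 := by
    by_contra! h
    exact he0 (hm e h)
  have h := logHeight_le c' ρ'
    (fun i j hij => hρ (congrArg Subtype.val hij)) m
    (fun j h0 => hα j (congrArg Subtype.val h0)) hne hrel' (hB e)
  have hlog : Real.log (totalGap ρ') = Module.finrank ℚ L * (Real.log 4 + ∑ j, algHeight (ρ j) +
      ∑ z : J × J, algHeight (ρ z.1 - ρ z.2)⁻¹) := by
    have h1 : ∀ j, mulHeight₁ (ρ' j) ≠ 0 := fun j => mulHeight₁_ne_zero _
    have h2 : ∀ z : J × J, mulHeight₁ (ρ' z.1 - ρ' z.2)⁻¹ ≠ 0 := fun z => mulHeight₁_ne_zero _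
    rw [totalGap, Real.log_mul (mul_ne_zero (by positivity) (Finset.prod_ne_zero_iff.2 fun j _ =>
      h1 j)) (Finset.prod_ne_zero_iff.2 fun z _ => h2 z), Real.log_mul (by positivity)
      (Finset.prod_ne_zero_iff.2 fun j _ => h1 j), Real.log_pow, Real.log_prod fun j _ => h1 j,
      Real.log_prod fun z _ => h2 z, NumberField.totalWeight_eq_finrank, mul_add, mul_add,
      Finset.mul_sum, Finset.mul_sum]
    simp only [← logHeight₁_eq_log_mulHeight₁, hval]
    rfl
  rw [hlog, hval α', Finset.sum_congr rfl fun i _ => hval (c' i), ← Finset.mul_sum] at h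
  refine le_of_mul_le_mul_left (h.trans_eq ?_)
    (Nat.cast_pos.2 (Module.finrank_pos (R := ℚ) (M := L)))
  ring

open Polynomial in
/-- **Northcott** for the absolute height. -/
theorem finite_algHeight_le (T : ℝ) (d : ℕ) :
    {x : ℂ | IsAlgebraic ℚ x ∧ (minpoly ℚ x).natDegree ≤ d ∧ algHeight x ≤ T}.Finite := by
  classical
  set S := {p : ℤ[X] | p.natDegree ≤ d ∧
    (p.map (Int.castRingHom ℂ)).mahlerMeasure ≤ (Real.exp (max T 0 * d)).toNNReal}
  have hS : S.Finite := Polynomial.finite_mahlerMeasure_le d _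
  refine (hS.biUnion fun p _ => (p.map (Int.castRingHom ℂ)).roots.toFinset.finite_toSet).subset ?_
  rintro x ⟨halg, hdeg, hT⟩
  obtain ⟨p, hp, hpx⟩ := BiluTorus.exists_irreducible halg
  have hd0 := BiluTorus.natDegree_pos_of_root hp hpx
  have hdeg' : p.natDegree ≤ d := by
    rw [BiluTorus.minpoly_eq hp hpx, Polynomial.natDegree_mul_C (inv_ne_zero
      (leadingCoeff_ne_zero.2 (BiluTorus.irreducible_mapQ hp hpx).ne_zero)),
      natDegree_map_eq_of_injective Int.cast_injective] at hdeg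
    exact hdeg
  have hM : (p.map (Int.castRingHom ℂ)).mahlerMeasure ≤ Real.exp (max T 0 * d) := by
    rw [BiluTorus.algHeight_eq hp hpx, div_le_iff₀ (Nat.cast_pos.2 hd0)] at hT
    have h1 : Real.log (p.map (Int.castRingHom ℂ)).mahlerMeasure ≤ max T 0 * d :=
      hT.trans (mul_le_mul (le_max_left ..) (Nat.cast_le.2 hdeg') (Nat.cast_nonneg _)
        (le_max_right ..))
    refine le_trans ?_ (Real.exp_le_exp.2 h1)
    rw [Real.exp_log_eq_abs]
    · exact le_abs_self _
    · exact (Polynomial.mahlerMeasure_pos_of_ne_zero ((Polynomial.map_ne_zero_iff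
        Int.cast_injective).2 hp.ne_zero)).ne'
  refine Set.mem_biUnion (x := p) ⟨hdeg', hM.trans (Real.le_coe_toNNReal _)⟩ ?_
  rw [Finset.mem_coe, Multiset.mem_toFinset, mem_roots ((Polynomial.map_ne_zero_iff
    Int.cast_injective).2 hp.ne_zero), IsRoot, eval_map, ← algebraMap_int_eq, ← aeval_def]
  exact hpx

end FA.BMZ

end
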